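import Mathlib
import Fermat.Agent.LT.T1.Closed
import Fermat.Agent.LT.T2.H472.LocContLeaf
import Fermat.Agent.LT.T2.H770.MeanAdj
import Fermat.Agent.LT.T2.H878.FubiniMean
import Fermat.Agent.LT.T7.H445.StepMSpec

/-!
# Row LT, tower T7, node `B981.StepMC981`, LEAF M.4 `SphOpC445` (helper868, spare of row 2896)

OFF-MAIN.  `sphOpC868 (K) : H445.SphOpC445 K` VERBATIM vs `T7/H445/StepMSpec.lean` (helper445,
sha256 95c0ff93), UNCONDITIONAL.  No hole, nothing assumed.

Proof (header (a) of the spec).  `I(p) = ∫ φ(h Y_p) χ(x h) dμ(h)`, `J(q) = ∫ φ(h) χ(x h Y_q) dμ(h)`,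
`I₀ = ∫ φ(h) χ(x h a⁻¹) dμ(h)`, `a = Y 0 0`.
* `I(p) = I₀`: right invariance of `μ` (`IsFrame.right_inv`), `Y_p⁻¹ = a⁻¹ k⁻¹`, `k = Y_p a⁻¹`
  in the compact group at `w`, `χ` right invariant.
* `J(q) = I₀`: `k' = Y_q W a`, `W = Y 0 π · a⁻¹` (component `rotY π`) is in the compact group at
  `w` (`torus d · rotY π · torus d = rotY π`, helper770), `k' a⁻¹ = Y_q W`; right invariance of
  `μ`, `φ` and `χ` right invariant under the compact group.
* Fubini twice (`T2/H878/FubiniMean.lean fubini878`; supports in `supp φ · (Y(box))⁻¹`, resp.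
  `supp φ`), `MeanEig` at `g = x h`.
-/

set_option autoImplicit false
set_option linter.unusedVariables false
set_option linter.unusedSectionVars false
set_option linter.style.haveILetI false

open AutomorphicForm IsDedekindDomain NumberField MeasureTheory
open scoped ComplexConjugate Pointwise

noncomputable section

namespace Fermat.Agent.LT.T7.H868

open Fermat.Agent.LT.H556 Fermat.Agent.LT.H556.A0 Fermat.Agent.LT.T7 Fermat.Agent.LT
open Fermat.Agent.LT.T2.H770 Fermat.Agent.LT.T2.H472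

attribute [local instance] Fermat.Agent.LT.T5.instMeasurableSpaceG

variable {K : Type} [Field K] [NumberField K]

/-- The box of the Euler angles. -/
def sphBox868 : Set (ℝ × ℝ) := Set.Ioc (0 : ℝ) (2 * Real.pi) ×ˢ Set.Ioc (0 : ℝ) Real.pi

/-- The closed box. -/
def sphBoxC868 : Set (ℝ × ℝ) := Set.Icc (0 : ℝ) (2 * Real.pi) ×ˢ Set.Icc (0 : ℝ) Real.pi

theorem nuS_eq868 : nuS770 = (volume : Measure (ℝ × ℝ)).restrict sphBox868 := by
  unfold nuS770 sphBox868
  rw [Measure.prod_restrict]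
  rfl

theorem measurableSet_sphBox868 : MeasurableSet sphBox868 :=
  measurableSet_Ioc.prod measurableSet_Ioc

theorem isCompact_sphBoxC868 : IsCompact sphBoxC868 := isCompact_Icc.prod isCompact_Icc

theorem sphBox_subset868 : sphBox868 ⊆ sphBoxC868 :=
  Set.prod_mono Set.Ioc_subset_Icc_self Set.Ioc_subset_Icc_self

/-- Right invariance of the measure of a frame, in integral form. -/
theorem integral_mul_right868 {μ : Measure (G K)} {F : Set (G K)} (hF : T5.IsFrame μ F)
    (g : G K) (f : G K → ℂ) : ∫ h, f (h * g) ∂μ = ∫ h, f h ∂μ := by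
  haveI : BorelSpace (G K) := ⟨rfl⟩
  have hmp : MeasurePreserving (MeasurableEquiv.mulRight g : G K ≃ᵐ G K) μ μ := by
    refine ⟨(MeasurableEquiv.mulRight g).measurable, ?_⟩
    ext A hA
    rw [Measure.map_apply (MeasurableEquiv.mulRight g).measurable hA]
    exact hF.right_inv g A hA
  exact hmp.integral_comp' f

/-- **LEAF M.4 = SPH-OP**, verbatim. -/
theorem sphOpC868 (K : Type) [Field K] [NumberField K] : H445.SphOpC445 K := by
  intro R hR 𝔫 w hw d hd Y hY φ hφ 𝔫' l o χ C hχ x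
  classical
  have hT : T1.T1Out K := T1.t1Out K
  haveI : T2Space (G K) := hT.locComp.2.2.1
  haveI : SecondCountableTopology (G K) := hT.locComp.2.2.2
  haveI : LocallyCompactSpace (G K) := hT.locComp.2.1
  haveI : BorelSpace (G K) := ⟨rfl⟩
  haveI : R.μ.IsHaarMeasure := hR.frame.haar
  have hYs : T2.IsSphereAt w d Y := hY
  have hYc : Continuous fun p : ℝ × ℝ => Y p.1 p.2 :=
    T2.H546.continuous_sphere_h546 (subLocCont472 K) hYs
  have hnr : ¬ w.IsReal := InfinitePlace.not_isReal_iff_isComplex.2 hw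
  -- bounds
  obtain ⟨Cφ, hCφ⟩ : ∃ C : ℝ, ∀ g : G K, ‖φ g‖ ≤ C :=
    hφ.cont.bounded_above_of_compact_support hφ.supp
  obtain ⟨Cχ, hCχ⟩ := hχ.inv.cusp.bdd
  have hχc : Continuous χ := hχ.inv.cusp.cont
  -- invariance under the compact group at `w`
  have hχk : ∀ (k : G K), IsArchCompact w k → ∀ g : G K, χ (g * k) = χ g := by
    intro k hk g
    have := hχ.inv.cusp.aut.arch_compact w k hk g
    rw [this]
    show (1 : ℂ) * χ g = χ g
    rw [one_mul]
  have hφk : ∀ (k : G K), IsArchCompact w k → ∀ g : G K, φ (g * k) = φ g := by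
    intro k hk g
    have := hφ.inv.arch_right w k hk g
    rw [this]
    show (1 : ℂ)⁻¹ * φ g = φ g
    rw [inv_one, one_mul]
  -- the elements
  set a : G K := Y 0 0 with ha
  set j : G K := Y 0 Real.pi with hj
  have hac : infComp w a = torus d := by
    rw [ha, (hY 0 0).2, rotZ_zero770, rotY_zero770, one_mul, one_mul]
  have hjc : infComp w j = rotY Real.pi * torus d := by
    rw [hj, (hY 0 Real.pi).2, rotZ_zero770, one_mul]
  have hal : IsLocalAtInf w a := (hY 0 0).1
  have hjl : IsLocalAtInf w j := (hY 0 Real.pi).1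
  have hal' : IsLocalAtInf w a⁻¹ := isLocalAtInf_inv472 hal
  have hta : torus d * infComp w a⁻¹ = 1 := by
    rw [← hac]
    exact infComp_mul_inv770 w a
  have hJc : infComp w (j * a⁻¹) = rotY Real.pi := by
    rw [infComp_mul770, hjc, mul_assoc, hta, mul_one]
  have hJ : IsArchCompact w (j * a⁻¹) :=
    ⟨isLocalAtInf_mul770 hjl hal', by rw [hJc]; exact rotY_unitary770 _,
      fun h => absurd h hnr⟩
  have hku : ∀ α β : ℝ, (rotZ α * rotY β) * (rotZ α * rotY β).conjTranspose = 1 := fun α β =>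
    unitary_mul770 (rotZ_unitary770 α) (rotY_unitary770 β)
  have hk : ∀ α β : ℝ, IsArchCompact w (Y α β * a⁻¹) := by
    intro α β
    have hc : infComp w (Y α β * a⁻¹) = rotZ α * rotY β := by
      rw [infComp_mul770, (hY α β).2, mul_assoc, hta, mul_one]
    exact ⟨isLocalAtInf_mul770 (hY α β).1 hal', by rw [hc]; exact hku α β,
      fun h => absurd h hnr⟩
  have hk' : ∀ α β : ℝ, IsArchCompact w (Y α β * (j * a⁻¹) * a) := by
    intro α β
    have hc : infComp w (Y α β * (j * a⁻¹) * a) = rotZ α * rotY β * rotY Real.pi := by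
      rw [infComp_mul770, infComp_mul770, (hY α β).2, hJc, hac, mul_assoc, mul_assoc,
        ← mul_assoc (torus d), torus_rotY_pi770]
    exact ⟨isLocalAtInf_mul770 (isLocalAtInf_mul770 (hY α β).1 hJ.1) hal,
      by rw [hc]; exact unitary_mul770 (hku α β) (rotY_unitary770 _), fun h => absurd h hnr⟩
  -- the three integrals
  set I₀ : ℂ := ∫ h, φ h * χ (x * h * a⁻¹) ∂(R.μ) with hI₀
  have hI : ∀ α β : ℝ, ∫ h, φ (h * Y α β) * χ (x * h) ∂(R.μ) = I₀ := by
    intro α β
    have h1 := integral_mul_right868 hR.frame (Y α β)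
      (fun h => φ h * χ (x * (h * (Y α β)⁻¹)))
    have e1 : (fun h : G K => φ (h * Y α β) * χ (x * (h * Y α β * (Y α β)⁻¹)))
        = fun h => φ (h * Y α β) * χ (x * h) := by
      funext h
      rw [mul_inv_cancel_right]
    rw [e1] at h1
    rw [h1, hI₀]
    congr 1
    funext h
    have e2 : x * (h * (Y α β)⁻¹) = x * h * a⁻¹ * (Y α β * a⁻¹)⁻¹ := by group
    rw [e2]
    have := hχk (Y α β * a⁻¹) (hk α β) (x * h * a⁻¹ * (Y α β * a⁻¹)⁻¹)
    rw [inv_mul_cancel_right] at this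
    rw [this]
  have hJq : ∀ α β : ℝ, ∫ h, φ h * χ (x * h * Y α β) ∂(R.μ) = I₀ := by
    intro α β
    have h1 := integral_mul_right868 hR.frame (Y α β * (j * a⁻¹) * a)
      (fun h => φ h * χ (x * h * a⁻¹))
    rw [hI₀, ← h1]
    congr 1
    funext h
    rw [hφk _ (hk' α β) h]
    congr 1
    have e2 : x * (h * (Y α β * (j * a⁻¹) * a)) * a⁻¹ = x * h * Y α β * (j * a⁻¹) := by group
    rw [e2, hχk _ hJ]
  -- the sphere means as integrals over the box
  have hmφ : ∀ h : G K, H445.sphMean445 Y φ h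
      = ∫ p in sphBox868, φ (h * Y p.1 p.2) * ((Real.sin p.2 : ℝ) : ℂ) := by
    intro h
    have := sphereMean_eq770 hYc hφ.cont hCφ h
    rw [nuS_eq868] at this
    exact this
  have hmχ : ∀ g : G K, (∫ p in sphBox868, χ (g * Y p.1 p.2) * ((Real.sin p.2 : ℝ) : ℂ))
      = C.m w d * χ g := by
    intro g
    have h1 := sphereMean_eq770 hYc hχc hCχ g
    rw [nuS_eq868] at h1
    rw [← h1]
    exact hχ.mean w d hd Y hY g
  -- the two functions on the product
  have hsin : Continuous fun q : G K × (ℝ × ℝ) => ((Real.sin q.2.2 : ℝ) : ℂ) :=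
    Complex.continuous_ofReal.comp (Real.continuous_sin.comp (continuous_snd.comp continuous_snd))
  have hYq : Continuous fun q : G K × (ℝ × ℝ) => Y q.2.1 q.2.2 := hYc.comp continuous_snd
  have hΦ1 : Continuous (Function.uncurry fun (h : G K) (p : ℝ × ℝ) =>
      φ (h * Y p.1 p.2) * ((Real.sin p.2 : ℝ) : ℂ) * χ (x * h)) :=
    ((hφ.cont.comp (continuous_fst.mul hYq)).mul hsin).mul
      (hχc.comp (continuous_const.mul continuous_fst))
  have hΦ2 : Continuous (Function.uncurry fun (h : G K) (p : ℝ × ℝ) =>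
      φ h * (χ (x * h * Y p.1 p.2) * ((Real.sin p.2 : ℝ) : ℂ))) :=
    (hφ.cont.comp continuous_fst).mul
      ((hχc.comp ((continuous_const.mul continuous_fst).mul hYq)).mul hsin)
  have hC1 : IsCompact (tsupport φ * ((fun p : ℝ × ℝ => Y p.1 p.2) '' sphBoxC868)⁻¹) :=
    IsCompact.mul hφ.supp (isCompact_sphBoxC868.image hYc).inv
  have h01 : ∀ h : G K, h ∉ tsupport φ * ((fun p : ℝ × ℝ => Y p.1 p.2) '' sphBoxC868)⁻¹ →
      ∀ p ∈ sphBoxC868, φ (h * Y p.1 p.2) * ((Real.sin p.2 : ℝ) : ℂ) * χ (x * h) = 0 := by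
    intro h hh p hp
    have : φ (h * Y p.1 p.2) = 0 := by
      by_contra hne
      apply hh
      rw [Set.mem_mul]
      refine ⟨h * Y p.1 p.2, subset_tsupport _ hne, (Y p.1 p.2)⁻¹,
        Set.inv_mem_inv.2 (Set.mem_image_of_mem _ hp), ?_⟩
      rw [mul_inv_cancel_right]
    rw [this, zero_mul, zero_mul]
  have h02 : ∀ h : G K, h ∉ tsupport φ →
      ∀ p ∈ sphBoxC868, φ h * (χ (x * h * Y p.1 p.2) * ((Real.sin p.2 : ℝ) : ℂ)) = 0 := by
    intro h hh p _
    have : φ h = 0 := by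
      by_contra hne
      exact hh (subset_tsupport _ hne)
    rw [this, zero_mul]
  have hF1 := T2.H878.fubini878 R.μ (volume : Measure (ℝ × ℝ)) hΦ1 hC1
    measurableSet_sphBox868 isCompact_sphBoxC868 sphBox_subset868 h01
  have hF2 := T2.H878.fubini878 R.μ (volume : Measure (ℝ × ℝ)) hΦ2 hφ.supp
    measurableSet_sphBox868 isCompact_sphBoxC868 sphBox_subset868 h02
  -- assembly
  show (∫ y, H445.sphMean445 Y φ y * χ (x * y) ∂(R.μ)) = C.m w d * ∫ y, φ y * χ (x * y) ∂(R.μ)
  calc (∫ y, H445.sphMean445 Y φ y * χ (x * y) ∂(R.μ))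
      = ∫ h, (∫ p in sphBox868,
          φ (h * Y p.1 p.2) * ((Real.sin p.2 : ℝ) : ℂ) * χ (x * h)
            ∂(volume : Measure (ℝ × ℝ))) ∂(R.μ) := by
        refine integral_congr_ae (Filter.Eventually.of_forall fun h => ?_)
        show H445.sphMean445 Y φ h * χ (x * h) = _
        rw [hmφ h, ← integral_mul_const]
    _ = ∫ p in sphBox868, ∫ h,
          φ (h * Y p.1 p.2) * ((Real.sin p.2 : ℝ) : ℂ) * χ (x * h) ∂(R.μ) := hF1
    _ = ∫ p in sphBox868, ∫ h,
          φ h * (χ (x * h * Y p.1 p.2) * ((Real.sin p.2 : ℝ) : ℂ)) ∂(R.μ) := by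
        refine integral_congr_ae (Filter.Eventually.of_forall fun p => ?_)
        show (∫ h, φ (h * Y p.1 p.2) * ((Real.sin p.2 : ℝ) : ℂ) * χ (x * h) ∂(R.μ))
          = ∫ h, φ h * (χ (x * h * Y p.1 p.2) * ((Real.sin p.2 : ℝ) : ℂ)) ∂(R.μ)
        have e1 : (fun h : G K => φ (h * Y p.1 p.2) * ((Real.sin p.2 : ℝ) : ℂ) * χ (x * h))
            = fun h => (φ (h * Y p.1 p.2) * χ (x * h)) * ((Real.sin p.2 : ℝ) : ℂ) := by
          funext h
          ring
        have e2 : (fun h : G K => φ h * (χ (x * h * Y p.1 p.2) * ((Real.sin p.2 : ℝ) : ℂ)))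
            = fun h => (φ h * χ (x * h * Y p.1 p.2)) * ((Real.sin p.2 : ℝ) : ℂ) := by
          funext h
          ring
        rw [e1, e2, integral_mul_const, integral_mul_const, hI p.1 p.2, hJq p.1 p.2]
    _ = ∫ h, (∫ p in sphBox868,
          φ h * (χ (x * h * Y p.1 p.2) * ((Real.sin p.2 : ℝ) : ℂ))
            ∂(volume : Measure (ℝ × ℝ))) ∂(R.μ) := hF2.symm
    _ = ∫ h, φ h * (C.m w d * χ (x * h)) ∂(R.μ) := by
        refine integral_congr_ae (Filter.Eventually.of_forall fun h => ?_)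
        show (∫ p in sphBox868, φ h * (χ (x * h * Y p.1 p.2) * ((Real.sin p.2 : ℝ) : ℂ)))
          = φ h * (C.m w d * χ (x * h))
        rw [integral_const_mul, hmχ (x * h)]
    _ = C.m w d * ∫ y, φ y * χ (x * y) ∂(R.μ) := by
        rw [← integral_const_mul]
        congr 1
        funext h
        ring

end Fermat.Agent.LT.T7.H868

end
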